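import Fermat.Agent.GS.Tower.Sat

/-! GS, layer Tower, file WStable: the chart is stable under `w`.
`ϖ^m w(t) ∈ C` (`Ct.wint`), `w t ∈ 𝒪_∞ ∩ 𝒪_0`, so `w t ∈ C` by `SatChart2.sat_pow`; then
`w C = ` integral closure of `R[w t]` `⊆ C`. -/

set_option autoImplicit false

namespace Fermat.Agent.GS

open Fermat.Agent.GR.E

variable {R : Type*} [CommRing R] [IsDomain R] [IsDiscreteValuationRing R]
variable {F1 F : Type*} [Field F1] [Field F] [Algebra R F1] [Algebra R F] [Algebra F1 F]
  [IsScalarTower R F1 F]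
variable {ϖ : R} {𝒪1 : ValuationSubring F1} {𝒪 : ValuationSubring F} {w : F ≃ₐ[R] F} {q : ℕ}

theorem TowerChart.wt_mem_chart (T : TowerData ϖ 𝒪1 𝒪 w) {t : F1}
    (Ct : TowerChart ϖ 𝒪1 𝒪 w q t) :
    w (algebraMap F1 F t) ∈ chart R ({algebraMap F1 F t} : Set F) := by
  obtain ⟨m, hm⟩ := Ct.wint
  have h0 : algebraMap R F ϖ ^ m ≠ 0 := pow_ne_zero _ T.gauss.ne_zero
  have e : algebraMap R F ϖ ^ m * w (algebraMap F1 F t) / algebraMap R F ϖ ^ m =
      w (algebraMap F1 F t) := by
    rw [mul_div_assoc, mul_div_cancel₀ _ h0] 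
  have := (Ct.satChart2 T).sat_pow m hm (by rw [e]; exact Ct.wt_mem T)
    (by rw [e, mem_opp, T.invol]; exact Ct.t_mem T)
  rwa [e] at this

/-- a chart generated by elements of an other chart is contained in it. -/
theorem WStable_chart_le {S S' : Set F} (h : S' ⊆ (chart R S : Set F)) :
    chart R S' ≤ chart R S := by
  intro x hx
  rw [mem_chart] at hx
  apply chart_closed S x
  have hle : Algebra.adjoin R S' ≤ chart R S := Algebra.adjoin_le h
  exact hx.map_of_comp_eq (Subalgebra.inclusion hle).toRingHom (RingHom.id F) (by ext; rfl)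

theorem TowerChart.w_mem_chart (T : TowerData ϖ 𝒪1 𝒪 w) {t : F1}
    (Ct : TowerChart ϖ 𝒪1 𝒪 w q t) {x : F} (hx : x ∈ chart R ({algebraMap F1 F t} : Set F)) :
    w x ∈ chart R ({algebraMap F1 F t} : Set F) := by
  have h1 := map_mem_chart w hx
  refine WStable_chart_le ?_ h1
  rintro _ ⟨s, hs, rfl⟩
  rw [Set.mem_singleton_iff] at hs
  rw [hs]
  exact Ct.wt_mem_chart T

/-- `w` as an automorphism of the chart. -/
theorem TowerChart.exists_wEquiv (T : TowerData ϖ 𝒪1 𝒪 w) {t : F1}
    (Ct : TowerChart ϖ 𝒪1 𝒪 w q t) :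
    ∃ e : chart R ({algebraMap F1 F t} : Set F) ≃+* chart R ({algebraMap F1 F t} : Set F),
      ∀ x, ((e x : chart R ({algebraMap F1 F t} : Set F)) : F) = w x := by
  refine ⟨{ toFun := fun x => ⟨w x, Ct.w_mem_chart T x.2⟩
            invFun := fun x => ⟨w x, Ct.w_mem_chart T x.2⟩
            left_inv := fun x => Subtype.ext (T.invol x)
            right_inv := fun x => Subtype.ext (T.invol x)
            map_mul' := fun x y => Subtype.ext (by simp)
            map_add' := fun x y => Subtype.ext (by simp) }, fun x => rfl⟩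

end Fermat.Agent.GS
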