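import Fermat.Agent.GS.Tower.K1
import Fermat.Agent.GS.Tower.WStable
import Fermat.Agent.GS.Abs.Cert

/-! GS, layer Tower, file Frob: `φ² x ≡ x^(q²)` modulo `𝔭_∞ + 𝔭_0`, and `𝔭_∞ + 𝔭_0` is radical.

For `f ∈ C1`: `u(f) := w φ f - f^q ∈ 𝔭_∞` (`Φ.frob`), so `w u(f) = φ f - (w f)^q ∈ 𝔭_0`.  With
`f' = φ f`: `φ² f - (w φ f)^q = w u(f') ∈ 𝔭_0` and `(w φ f)^q - f^(q²) ∈ u(f) C ⊆ 𝔭_∞`.
General `x ∈ C`: `x ≡ f` mod `𝔭_∞` by `TowerChart.exists_sub_div_mem`.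
Radical: `τ = φ²` is an automorphism of `C` preserving `I = 𝔭_∞ + 𝔭_0` (also `τ⁻¹`), `τ^e x ≡ x^(q^(2e))`
mod `I`; if `x^m ∈ I` take `q^(2e) ≥ m`: `τ^e x ∈ I`, so `x ∈ I`. -/

set_option autoImplicit false

namespace Fermat.Agent.GS

open Fermat.Agent.GR.E

variable {R : Type*} [CommRing R] [IsDomain R] [IsDiscreteValuationRing R]
variable {F1 F : Type*} [Field F1] [Field F] [Algebra R F1] [Algebra R F] [Algebra F1 F]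
  [IsScalarTower R F1 F]
variable {ϖ : R} {𝒪1 : ValuationSubring F1} {𝒪 : ValuationSubring F} {w : F ≃ₐ[R] F} {q : ℕ}

theorem TowerFrob.chartAut (T : TowerData ϖ 𝒪1 𝒪 w) {φ : F ≃+* F} (Φ : TowerFrob ϖ 𝒪1 𝒪 w q φ)
    {h : F} (hφ : φ h = h) : ChartAut R 𝒪 (opp 𝒪 w) h φ := by
  refine ⟨Φ.mapR, Φ.mapR_symm, Φ.mem, fun x => ?_, hφ⟩
  rw [mem_opp, mem_opp, ← Φ.comm, Φ.mem]

theorem ChartAut.trans {𝒪₁ 𝒪₂ : ValuationSubring F} {h : F} {σ τ : F ≃+* F}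
    (hσ : ChartAut R 𝒪₁ 𝒪₂ h σ) (hτ : ChartAut R 𝒪₁ 𝒪₂ h τ) :
    ChartAut R 𝒪₁ 𝒪₂ h (σ.trans τ) := by
  refine ⟨fun r => ?_, fun r => ?_, fun x => ?_, fun x => ?_, ?_⟩
  · obtain ⟨r', hr'⟩ := hσ.mapR r
    obtain ⟨r'', hr''⟩ := hτ.mapR r'
    exact ⟨r'', by rw [RingEquiv.trans_apply, hr', hr'']⟩
  · obtain ⟨r', hr'⟩ := hτ.mapR_symm r
    obtain ⟨r'', hr''⟩ := hσ.mapR_symm r'
    exact ⟨r'', by rw [RingEquiv.symm_trans_apply, hr', hr'']⟩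
  · rw [RingEquiv.trans_apply, hτ.mem₁, hσ.mem₁]
  · rw [RingEquiv.trans_apply, hτ.mem₂, hσ.mem₂]
  · rw [RingEquiv.trans_apply, hσ.fix, hτ.fix]

theorem ChartAut.symm {𝒪₁ 𝒪₂ : ValuationSubring F} {h : F} {σ : F ≃+* F}
    (hσ : ChartAut R 𝒪₁ 𝒪₂ h σ) : ChartAut R 𝒪₁ 𝒪₂ h σ.symm := by
  refine ⟨hσ.mapR_symm, fun r => ?_, fun x => ?_, fun x => ?_, ?_⟩
  · rw [RingEquiv.symm_symm]
    exact hσ.mapR r
  · rw [← hσ.mem₁, RingEquiv.apply_symm_apply]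
  · rw [← hσ.mem₂, RingEquiv.apply_symm_apply]
  · rw [RingEquiv.symm_apply_eq, hσ.fix]

/-- `σ ϖ = unit * ϖ`, so `σ` preserves `ϖ 𝒪₁`. -/
theorem ChartAut.div_mem₁ (hϖ : Irreducible ϖ) {𝒪₁ 𝒪₂ : ValuationSubring F}
    (hG : GaussRing ϖ 𝒪₁) (hR : ∀ r : R, algebraMap R F r ∈ 𝒪₁) {h : F} {σ : F ≃+* F}
    (hσ : ChartAut R 𝒪₁ 𝒪₂ h σ) {x : F} (hx : x / algebraMap R F ϖ ∈ 𝒪₁) :
    σ x / algebraMap R F ϖ ∈ 𝒪₁ := by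
  obtain ⟨s, t, hst, hσϖ⟩ := Cert_map_unif hϖ hG.ne_zero hσ
  have hs0 : algebraMap R F s ≠ 0 := by
    intro h0
    have : algebraMap R F (s * t) = 1 := by rw [hst, map_one]
    rw [map_mul, h0, zero_mul] at this
    exact zero_ne_one this
  have e : σ x / algebraMap R F ϖ = σ (x / algebraMap R F ϖ) * algebraMap R F s := by
    rw [map_div₀, hσϖ]
    have := hG.ne_zero
    field_simp
  rw [e]
  exact mul_mem ((hσ.mem₁ _).2 hx) (hR s)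

/-- `a ≡ b` implies `a ^ n ≡ b ^ n`. -/
theorem Frob_pow_sub_pow_div_mem {V : ValuationSubring F} {c a b : F} (ha : a ∈ V) (hb : b ∈ V)
    (h : (a - b) / c ∈ V) (n : ℕ) : (a ^ n - b ^ n) / c ∈ V := by
  induction n with
  | zero => simp
  | succ n ih =>
    have e : (a ^ (n + 1) - b ^ (n + 1)) / c = a ^ n * ((a - b) / c) + (a ^ n - b ^ n) / c * b := by
      ring
    rw [e]
    exact add_mem (mul_mem (pow_mem ha n) h) (mul_mem ih hb)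

theorem Frob_mem_sup_iff {𝒪₁ 𝒪₂ : ValuationSubring F} {C : Subalgebra R F}
    (h₁ : ∀ x ∈ C, x ∈ 𝒪₁) (h₂ : ∀ x ∈ C, x ∈ 𝒪₂) (y : C) :
    y ∈ vert ϖ 𝒪₁ C ⊔ vert ϖ 𝒪₂ C ↔ ∃ y₁ ∈ C, ∃ y₂ ∈ C, y₁ / algebraMap R F ϖ ∈ 𝒪₁ ∧
      y₂ / algebraMap R F ϖ ∈ 𝒪₂ ∧ (y : F) = y₁ + y₂ := by
  rw [Submodule.mem_sup]
  constructor
  · rintro ⟨a, ha, b, hb, rfl⟩
    exact ⟨a, a.2, b, b.2, (mem_vert h₁ a).1 ha, (mem_vert h₂ b).1 hb, rfl⟩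
  · rintro ⟨a, ha, b, hb, ha', hb', e⟩
    exact ⟨⟨a, ha⟩, (mem_vert h₁ _).2 ha', ⟨b, hb⟩, (mem_vert h₂ _).2 hb', Subtype.ext e.symm⟩

/-- abstract form of the radical argument. -/
theorem Frob_radical_of_frobLike (hϖ : Irreducible ϖ) {𝒪₁ 𝒪₂ : ValuationSubring F}
    (hG₁ : GaussRing ϖ 𝒪₁) (hG₂ : GaussRing ϖ 𝒪₂) {C : Subalgebra R F}
    (h₁ : ∀ x ∈ C, x ∈ 𝒪₁) (h₂ : ∀ x ∈ C, x ∈ 𝒪₂) {h : F} {τ : F ≃+* F}
    (hτ : ChartAut R 𝒪₁ 𝒪₂ h τ) (hτC : ∀ x ∈ C, τ.symm x ∈ C) {c : ℕ} (hc : 1 < c)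
    (hF : FrobLike ϖ 𝒪₁ 𝒪₂ C τ c) : (vert ϖ 𝒪₁ C ⊔ vert ϖ 𝒪₂ C).IsRadical := by
  have hs : ChartAut R 𝒪₁ 𝒪₂ h τ.symm := hτ.symm
  have hs' : ChartAut R 𝒪₂ 𝒪₁ h τ.symm := ⟨hs.mapR, hs.mapR_symm, hs.mem₂, hs.mem₁, hs.fix⟩
  have key : ∀ x : C, x ^ c ∈ vert ϖ 𝒪₁ C ⊔ vert ϖ 𝒪₂ C → x ∈ vert ϖ 𝒪₁ C ⊔ vert ϖ 𝒪₂ C := by
    intro x hx
    rw [Frob_mem_sup_iff h₁ h₂] at hx ⊢
    obtain ⟨a₁, ha₁, a₂, ha₂, ha₁', ha₂', e⟩ := hx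
    obtain ⟨y₁, hy₁, y₂, hy₂, hy₁', hy₂', e'⟩ := hF x x.2
    refine ⟨τ.symm (a₁ + y₁), hτC _ (C.add_mem ha₁ hy₁), τ.symm (a₂ + y₂),
      hτC _ (C.add_mem ha₂ hy₂), ?_, ?_, ?_⟩
    · refine hs.div_mem₁ hϖ hG₁ (fun r => h₁ _ (C.algebraMap_mem r)) ?_
      rw [add_div]
      exact add_mem ha₁' hy₁'
    · refine hs'.div_mem₁ hϖ hG₂ (fun r => h₂ _ (C.algebraMap_mem r)) ?_
      rw [add_div]
      exact add_mem ha₂' hy₂'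
    · rw [← map_add, RingEquiv.eq_symm_apply]
      have e2 : ((x ^ c : C) : F) = (x : F) ^ c := by push_cast; rfl
      rw [e2] at e
      linear_combination e' + e
  have key2 : ∀ (e : ℕ) (x : C), x ^ (c ^ e) ∈ vert ϖ 𝒪₁ C ⊔ vert ϖ 𝒪₂ C →
      x ∈ vert ϖ 𝒪₁ C ⊔ vert ϖ 𝒪₂ C := by
    intro e
    induction e with
    | zero => intro x hx; simpa using hx
    | succ e ih =>
      intro x hx
      rw [pow_succ, pow_mul] at hx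
      exact ih x (key _ hx)
  intro x hx
  obtain ⟨m, hm⟩ := Ideal.mem_radical_iff.1 hx
  exact key2 m x (Ideal.pow_mem_of_pow_mem _ hm (Nat.lt_pow_self hc).le)

theorem TowerChart.frobLike (hϖ : Irreducible ϖ) (T : TowerData ϖ 𝒪1 𝒪 w) {φ : F ≃+* F}
    (Φ : TowerFrob ϖ 𝒪1 𝒪 w q φ) {t : F1} (Ct : TowerChart ϖ 𝒪1 𝒪 w q t)
    (hφ : φ (algebraMap F1 F t) = algebraMap F1 F t) :
    FrobLike ϖ 𝒪 (opp 𝒪 w) (chart R ({algebraMap F1 F t} : Set F)) (φ.trans φ) (q ^ 2) := by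
  intro x hx
  have hA : ChartAut R 𝒪 (opp 𝒪 w) (algebraMap F1 F t) φ := Φ.chartAut T hφ
  have hφC : ∀ y ∈ chart R ({algebraMap F1 F t} : Set F),
      φ y ∈ chart R ({algebraMap F1 F t} : Set F) := fun y hy =>
    hA.map_mem_chart (by
      intro s hs
      rw [Set.mem_singleton_iff] at hs ⊢
      rw [hs, hφ]) hy
  have hwC : ∀ y ∈ chart R ({algebraMap F1 F t} : Set F),
      w y ∈ chart R ({algebraMap F1 F t} : Set F) := fun y hy => Ct.w_mem_chart T hy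
  have hle : ∀ y ∈ chart R ({algebraMap F1 F t} : Set F), y ∈ 𝒪 := Ct.le₁ T
  have hR : ∀ r : R, algebraMap R F r ∈ 𝒪 := Ct.algebraMap_mem T
  obtain ⟨f, hf, hxf⟩ := Ct.exists_sub_div_mem hϖ T hx
  have hfC : algebraMap F1 F f ∈ chart R ({algebraMap F1 F t} : Set F) :=
    algebraMap_mem_chart_singleton hf
  have hf1 : f ∈ 𝒪1 := Ct.good.le f hf
  obtain ⟨g, hg⟩ := Φ.sub f
  have hg1 : g ∈ 𝒪1 := by
    rw [← T.comap, ← hg, Φ.mem]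
    exact hle _ hfC
  have hu := Φ.frob f hf1
  have hu' := Φ.frob g hg1
  rw [← hg] at hu'
  generalize algebraMap F1 F f = f' at hxf hfC hu hu'
  have hy₂ : φ (φ f') - (w (φ f')) ^ q ∈ chart R ({algebraMap F1 F t} : Set F) :=
    Subalgebra.sub_mem _ (hφC _ (hφC _ hfC)) (Subalgebra.pow_mem _ (hwC _ (hφC _ hfC)) q)
  refine ⟨φ (φ x) - x ^ (q ^ 2) - (φ (φ f') - (w (φ f')) ^ q), ?_,
    φ (φ f') - (w (φ f')) ^ q, hy₂, ?_, ?_, ?_⟩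
  · exact Subalgebra.sub_mem _ (Subalgebra.sub_mem _ (hφC _ (hφC _ hx))
      (Subalgebra.pow_mem _ hx _)) hy₂
  · have e : (φ (φ x) - x ^ (q ^ 2) - (φ (φ f') - (w (φ f')) ^ q)) / algebraMap R F ϖ =
        φ (φ (x - f')) / algebraMap R F ϖ + ((w (φ f')) ^ q - (f' ^ q) ^ q) / algebraMap R F ϖ -
          (x ^ (q ^ 2) - f' ^ (q ^ 2)) / algebraMap R F ϖ := by
      rw [map_sub, map_sub, ← pow_mul, sq]
      ring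
    rw [e]
    refine sub_mem (add_mem ?_ ?_) ?_
    · exact hA.div_mem₁ hϖ T.gauss hR (hA.div_mem₁ hϖ T.gauss hR hxf)
    · exact Frob_pow_sub_pow_div_mem (hle _ (hwC _ (hφC _ hfC)))
        (hle _ (Subalgebra.pow_mem _ hfC q)) hu q
    · exact Frob_pow_sub_pow_div_mem (hle _ hx) (hle _ hfC) hxf _
  · have e : φ (φ f') - (w (φ f')) ^ q = w (w (φ (φ f')) - φ f' ^ q) := by
      rw [map_sub, T.invol, map_pow]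
    rw [e, T.div_mem_opp_iff]
    exact hu'
  · rw [RingEquiv.trans_apply]
    ring

theorem TowerChart.radical (hϖ : Irreducible ϖ) (hq : 1 < q) (T : TowerData ϖ 𝒪1 𝒪 w)
    {φ : F ≃+* F} (Φ : TowerFrob ϖ 𝒪1 𝒪 w q φ) {t : F1} (Ct : TowerChart ϖ 𝒪1 𝒪 w q t)
    (hφ : φ (algebraMap F1 F t) = algebraMap F1 F t) :
    (vert ϖ 𝒪 (chart R ({algebraMap F1 F t} : Set F)) ⊔
      vert ϖ (opp 𝒪 w) (chart R ({algebraMap F1 F t} : Set F))).IsRadical := by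
  have hA : ChartAut R 𝒪 (opp 𝒪 w) (algebraMap F1 F t) φ := Φ.chartAut T hφ
  have hAA : ChartAut R 𝒪 (opp 𝒪 w) (algebraMap F1 F t) (φ.trans φ) := hA.trans hA
  refine Frob_radical_of_frobLike hϖ T.gauss (gaussRing_opp T.gauss) (Ct.le₁ T) (Ct.le₂ T) hAA
    (fun y hy => hAA.symm.map_mem_chart (by
      intro s hs
      rw [Set.mem_singleton_iff] at hs ⊢
      rw [hs, hAA.symm.fix]) hy) (c := q ^ 2) ?_ (Ct.frobLike hϖ T Φ hφ)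
  exact Nat.one_lt_pow two_ne_zero hq

/-- an automorphism which is trivial modulo `ϖ` (an element of the inertia group). -/
theorem frobLike_one {𝒪₁ 𝒪₂ : ValuationSubring F} {C : Subalgebra R F} {τ : F ≃+* F}
    (hle : ∀ x ∈ C, x ∈ 𝒪₁) (hτC : ∀ x ∈ C, τ x ∈ C)
    (h₁ : ∀ x ∈ 𝒪₁, (τ x - x) / algebraMap R F ϖ ∈ 𝒪₁) : FrobLike ϖ 𝒪₁ 𝒪₂ C τ 1 := by
  intro x hx
  refine ⟨τ x - x, C.sub_mem (hτC x hx) hx, 0, C.zero_mem, h₁ x (hle x hx), ?_, ?_⟩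
  · rw [zero_div]
    exact zero_mem 𝒪₂
  · rw [pow_one, add_zero]

end Fermat.Agent.GS
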