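import Fermat.Agent.GS.Tower.Sat

/-! GS, layer Tower, file Frac.

`frac_of_sat` (abstract): `x ∈ 𝒪₁`, `d ∈ C ∖ 0` with `x d ∈ C`; `a` maximal with `d / ϖ^a ∈ 𝒪₁` (`hdisc`);
`e ∈ C` with `e/ϖ ∈ 𝒪₂`, `e/ϖ ∉ 𝒪₁` (so `e` is a unit of `𝒪₁`).  Then `b = d e^a / ϖ^a` works (`sat_pow`).
`exists_denominator`: `ϖ^a x ∈ 𝒪_∞ ∩ 𝒪_0` for `a` large (`T.disc`), so `x` is algebraic over `F1 = Frac C1`
(`T.integral`), so a nonzero multiple `d x`, `d ∈ C1`, is integral over `C1`. -/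

set_option autoImplicit false

namespace Fermat.Agent.GS

open Fermat.Agent.GR.E

variable {R : Type*} [CommRing R] [IsDomain R] [IsDiscreteValuationRing R]
variable {F1 F : Type*} [Field F1] [Field F] [Algebra R F1] [Algebra R F] [Algebra F1 F]
  [IsScalarTower R F1 F]
variable {ϖ : R} {𝒪1 : ValuationSubring F1} {𝒪 : ValuationSubring F} {w : F ≃ₐ[R] F} {q : ℕ}

theorem frac_of_sat {𝒪₁ 𝒪₂ : ValuationSubring F} (hG₁ : GaussRing ϖ 𝒪₁) {C : Subalgebra R F}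
    (hC : SatChart2 ϖ 𝒪₁ 𝒪₂ C)
    (hdisc : ∀ x : F, x ≠ 0 → ∃ a : ℕ, x / algebraMap R F ϖ ^ a ∉ 𝒪₁)
    (hden : ∀ x : F, ∃ d ∈ C, d ≠ 0 ∧ x * d ∈ C)
    (hsep : ∃ e ∈ C, e / algebraMap R F ϖ ∈ 𝒪₂ ∧ e / algebraMap R F ϖ ∉ 𝒪₁) :
    ∀ x ∈ 𝒪₁, ∃ b ∈ C, b / algebraMap R F ϖ ∉ 𝒪₁ ∧ x * b ∈ C := by
  intro x hx
  obtain ⟨d, hdC, hd0, hxd⟩ := hden x
  obtain ⟨e, heC, he2, he1⟩ := hsep
  have hP0 := hG₁.ne_zero
  have he𝒪 : e ∈ 𝒪₁ := hC.le₁ e heC
  have heinv : e⁻¹ ∈ 𝒪₁ := (hG₁.unif e he𝒪).resolve_left he1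
  have he0 : e ≠ 0 := by
    rintro rfl
    exact he1 (by rw [zero_div]; exact 𝒪₁.zero_mem)
  classical
  have hex := hdisc d hd0
  obtain ⟨a, ha, ha'⟩ : ∃ a : ℕ, d / algebraMap R F ϖ ^ a ∈ 𝒪₁ ∧
      d / algebraMap R F ϖ ^ (a + 1) ∉ 𝒪₁ := by
    have h0 : Nat.find hex ≠ 0 := by
      intro h0
      have := Nat.find_spec hex
      rw [h0, pow_zero, div_one] at this
      exact this (hC.le₁ d hdC)
    obtain ⟨a, ha⟩ := Nat.exists_eq_succ_of_ne_zero h0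
    refine ⟨a, ?_, ?_⟩
    · by_contra hcon
      exact Nat.find_min hex (by omega : a < Nat.find hex) hcon
    · have := Nat.find_spec hex
      rwa [ha] at this
  refine ⟨d * e ^ a / algebraMap R F ϖ ^ a, ?_, ?_, ?_⟩
  · apply hC.sat_pow a (C.mul_mem hdC (C.pow_mem heC a))
    · have : d * e ^ a / algebraMap R F ϖ ^ a = d / algebraMap R F ϖ ^ a * e ^ a := by ring
      rw [this]
      exact 𝒪₁.mul_mem _ _ ha (𝒪₁.pow_mem he𝒪 a)
    · have : d * e ^ a / algebraMap R F ϖ ^ a = d * (e / algebraMap R F ϖ) ^ a := by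
        rw [div_pow]; ring
      rw [this]
      exact 𝒪₂.mul_mem _ _ (hC.le₂ d hdC) (𝒪₂.pow_mem he2 a)
  · intro hcon
    apply ha'
    have : d / algebraMap R F ϖ ^ (a + 1)
        = d * e ^ a / algebraMap R F ϖ ^ a / algebraMap R F ϖ * e⁻¹ ^ a := by
      rw [inv_pow, pow_succ]
      field_simp
    rw [this]
    exact 𝒪₁.mul_mem _ _ hcon (𝒪₁.pow_mem heinv a)
  · have : x * (d * e ^ a / algebraMap R F ϖ ^ a) = (x * d) * e ^ a / algebraMap R F ϖ ^ a := by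
      ring
    rw [this]
    apply hC.sat_pow a (C.mul_mem hxd (C.pow_mem heC a))
    · have : x * d * e ^ a / algebraMap R F ϖ ^ a
          = x * (d / algebraMap R F ϖ ^ a * e ^ a) := by ring
      rw [this]
      exact 𝒪₁.mul_mem _ _ hx (𝒪₁.mul_mem _ _ ha (𝒪₁.pow_mem he𝒪 a))
    · have : x * d * e ^ a / algebraMap R F ϖ ^ a = (x * d) * (e / algebraMap R F ϖ) ^ a := by
        rw [div_pow]; ring
      rw [this]
      exact 𝒪₂.mul_mem _ _ (hC.le₂ _ hxd) (𝒪₂.pow_mem he2 a)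

omit [IsDomain R] [IsDiscreteValuationRing R] [IsScalarTower R F1 F] in
theorem TowerData.disc_opp (T : TowerData ϖ 𝒪1 𝒪 w) :
    ∀ x : F, x ≠ 0 → ∃ a : ℕ, x / algebraMap R F ϖ ^ a ∉ opp 𝒪 w := by
  intro x hx
  obtain ⟨a, ha⟩ := T.disc (w x) (by simpa using hx)
  refine ⟨a, fun h => ha ?_⟩
  rw [mem_opp, map_div₀, map_pow, AlgEquiv.commutes] at h
  exact h

/-- integrality only depends on the image of the coefficient ring. -/
theorem Frac_isIntegral_of_range {A A' B : Type*} [CommRing A] [CommRing A'] [CommRing B]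
    [Algebra A B] [Algebra A' B]
    (h : ∀ a : A, algebraMap A B a ∈ Set.range (algebraMap A' B)) {z : B} (hz : IsIntegral A z) :
    IsIntegral A' z := by
  obtain ⟨p, hp, hpz⟩ := hz
  have hl : p.map (algebraMap A B) ∈ Polynomial.lifts (algebraMap A' B) :=
    (Polynomial.lifts_iff_coeff_lifts _).mpr fun i => by
      rw [Polynomial.coeff_map]
      exact h _
  obtain ⟨r, hr, -, hrm⟩ := Polynomial.lifts_and_natDegree_eq_and_monic hl (hp.map _)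
  exact ⟨r, hrm, by rw [Polynomial.eval₂_eq_eval_map, hr, ← Polynomial.eval₂_eq_eval_map, hpz]⟩

theorem TowerChart.exists_denominator (T : TowerData ϖ 𝒪1 𝒪 w) {t : F1}
    (Ct : TowerChart ϖ 𝒪1 𝒪 w q t) (x : F) :
    ∃ d ∈ chart R ({algebraMap F1 F t} : Set F), d ≠ 0 ∧
      x * d ∈ chart R ({algebraMap F1 F t} : Set F) := by
  have hfr : IsFractionRing (chart R ({t} : Set F1)) F1 :=
    GoodChart.isFractionRing' Ct.good
  rcases eq_or_ne x 0 with rfl | hx0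
  · exact ⟨1, one_mem _, one_ne_zero, by rw [zero_mul]; exact zero_mem _⟩
  have hP0 := T.gauss.ne_zero
  have key : ∀ y : F, y ≠ 0 → ∃ a : ℕ, algebraMap R F ϖ ^ a * y ∈ 𝒪 := by
    intro y hy
    obtain ⟨a, ha⟩ := T.disc y⁻¹ (inv_ne_zero hy)
    refine ⟨a, ?_⟩
    have := (𝒪.mem_or_inv_mem (y⁻¹ / algebraMap R F ϖ ^ a)).resolve_left ha
    rwa [inv_div, div_inv_eq_mul] at this
  obtain ⟨a, ha⟩ := key x hx0
  obtain ⟨a', ha'⟩ := key (w x) (by simpa using hx0)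
  have hz1 : algebraMap R F ϖ ^ (a + a') * x ∈ 𝒪 := by
    rw [pow_add, mul_comm (algebraMap R F ϖ ^ a), mul_assoc]
    exact 𝒪.mul_mem _ _ (𝒪.pow_mem T.gauss.mem _) ha
  have hz2 : w (algebraMap R F ϖ ^ (a + a') * x) ∈ 𝒪 := by
    rw [map_mul, map_pow, AlgEquiv.commutes, pow_add, mul_assoc]
    exact 𝒪.mul_mem _ _ (𝒪.pow_mem T.gauss.mem _) ha'
  obtain ⟨p, hpm, -, hpz⟩ := T.integral _ hz1 hz2
  have halg : IsAlgebraic F1 (algebraMap R F ϖ ^ (a + a') * x) := ⟨p, hpm.ne_zero, hpz⟩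
  have halg' : IsAlgebraic (chart R ({t} : Set F1)) (algebraMap R F ϖ ^ (a + a') * x) :=
    (IsFractionRing.isAlgebraic_iff (chart R ({t} : Set F1)) F1 F).mpr halg
  obtain ⟨y, hy0, hy⟩ := halg'.exists_integral_multiple
  refine ⟨algebraMap F1 F y * algebraMap R F ϖ ^ (a + a'), ?_, ?_, ?_⟩
  · exact mul_mem (algebraMap_mem_chart_singleton y.2) (pow_mem (Subalgebra.algebraMap_mem _ ϖ) _)
  · refine mul_ne_zero ?_ (pow_ne_zero _ hP0)
    intro h0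
    apply hy0
    apply Subtype.ext
    exact (map_eq_zero (algebraMap F1 F)).mp h0
  · apply chart_closed
    have h1 := Frac_isIntegral_of_range (A := chart R ({t} : Set F1))
      (A' := chart R ({algebraMap F1 F t} : Set F)) (B := F)
      (fun c => ⟨⟨algebraMap F1 F c, algebraMap_mem_chart_singleton c.2⟩, rfl⟩) hy
    have h2 : y • (algebraMap R F ϖ ^ (a + a') * x)
        = x * (algebraMap F1 F y * algebraMap R F ϖ ^ (a + a')) := by
      rw [Algebra.smul_def]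
      show algebraMap F1 F y * (algebraMap R F ϖ ^ (a + a') * x) = _
      ring
    rwa [h2] at h1

end Fermat.Agent.GS
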