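import Fermat.Agent.GS.Tower.Defs

/-! GS, layer Tower, file Noeth. -/

set_option autoImplicit false

namespace Fermat.Agent.GS

open Fermat.Agent.GR.E

variable {R : Type*} [CommRing R] [IsDomain R] [IsDiscreteValuationRing R]
variable {F1 F : Type*} [Field F1] [Field F] [Algebra R F1] [Algebra R F] [Algebra F1 F]
  [IsScalarTower R F1 F]
variable {ϖ : R} {𝒪1 : ValuationSubring F1} {𝒪 : ValuationSubring F} {w : F ≃ₐ[R] F} {q : ℕ}

omit [IsDomain R] [IsDiscreteValuationRing R] in
/-- `R[h]` is noetherian (finite type over `R`), the chart is a finite module over it. -/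
theorem isNoetherianRing_chart [IsNoetherianRing R] {h : F}
    (hfin : Module.Finite (Algebra.adjoin R ({h} : Set F))
      (integralClosure (Algebra.adjoin R ({h} : Set F)) F)) :
    IsNoetherianRing (chart R ({h} : Set F)) := by
  have hft : Algebra.FiniteType R (Algebra.adjoin R ({h} : Set F)) :=
    (Subalgebra.fg_iff_finiteType _).1 ⟨{h}, by simp⟩
  have hA : IsNoetherianRing (Algebra.adjoin R ({h} : Set F)) :=
    Algebra.FiniteType.isNoetherianRing R _
  have hB : IsNoetherianRing (integralClosure (Algebra.adjoin R ({h} : Set F)) F) :=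
    IsNoetherianRing.of_finite (Algebra.adjoin R ({h} : Set F)) _
  exact hB

end Fermat.Agent.GS
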