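import Fermat.Agent.GS.Tower.WStable

/-! GS, layer Tower, file Sep: `θ = w t - t^q ∈ 𝔭_∞ ∖ 𝔭_0`, `w θ = t - (w t)^q ∈ 𝔭_0 ∖ 𝔭_∞`
(`w θ ≡ t - t^(q²)` mod `ϖ 𝒪_∞`, use `Ct.sep`). -/

set_option autoImplicit false

namespace Fermat.Agent.GS

open Fermat.Agent.GR.E

variable {R : Type*} [CommRing R] [IsDomain R] [IsDiscreteValuationRing R]
variable {F1 F : Type*} [Field F1] [Field F] [Algebra R F1] [Algebra R F] [Algebra F1 F]
  [IsScalarTower R F1 F]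
variable {ϖ : R} {𝒪1 : ValuationSubring F1} {𝒪 : ValuationSubring F} {w : F ≃ₐ[R] F} {q : ℕ}

/-- `t - (w t)^q ∉ ϖ 𝒪_∞`. -/
theorem Sep_not_mem (T : TowerData ϖ 𝒪1 𝒪 w) {t : F1} (Ct : TowerChart ϖ 𝒪1 𝒪 w q t) :
    (algebraMap F1 F t - w (algebraMap F1 F t) ^ q) / algebraMap R F ϖ ∉ 𝒪 := by
  intro h
  set a : F := w (algebraMap F1 F t) with ha
  set b : F := algebraMap F1 F t ^ q with hb
  have haO : a ∈ 𝒪 := Ct.wt_mem T
  have hbO : b ∈ 𝒪 := pow_mem (Ct.t_mem T) q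
  have h1 : (a ^ q - b ^ q) / algebraMap R F ϖ ∈ 𝒪 := by
    rw [← geom_sum₂_mul a b q, mul_div_assoc]
    exact 𝒪.mul_mem _ _ (sum_mem fun i _ => 𝒪.mul_mem _ _ (pow_mem haO _) (pow_mem hbO _)) Ct.cong
  have h2 : algebraMap F1 F (t - t ^ (q ^ 2)) / algebraMap R F ϖ ∈ 𝒪 := by
    have e : algebraMap F1 F (t - t ^ (q ^ 2)) / algebraMap R F ϖ
        = (algebraMap F1 F t - a ^ q) / algebraMap R F ϖ + (a ^ q - b ^ q) / algebraMap R F ϖ := by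
      rw [map_sub, map_pow, hb, ← pow_mul, ← pow_two]
      ring
    rw [e]
    exact 𝒪.add_mem _ _ h h1
  exact Ct.sep ((T.div_mem_iff _).1 h2)

theorem TowerChart.sep₁ (T : TowerData ϖ 𝒪1 𝒪 w) {t : F1} (Ct : TowerChart ϖ 𝒪1 𝒪 w q t) :
    ∃ e ∈ chart R ({algebraMap F1 F t} : Set F), e / algebraMap R F ϖ ∈ opp 𝒪 w ∧
      e / algebraMap R F ϖ ∉ 𝒪 := by
  refine ⟨algebraMap F1 F t - w (algebraMap F1 F t) ^ q,
    sub_mem (subset_chart _ (Set.mem_singleton _)) (pow_mem (Ct.wt_mem_chart T) q), ?_,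
    Sep_not_mem T Ct⟩
  rw [mem_opp, map_div_unif, map_sub, map_pow, T.invol]
  exact Ct.cong

theorem TowerChart.sep₂ (T : TowerData ϖ 𝒪1 𝒪 w) {t : F1} (Ct : TowerChart ϖ 𝒪1 𝒪 w q t) :
    ∃ e ∈ chart R ({algebraMap F1 F t} : Set F), e / algebraMap R F ϖ ∈ 𝒪 ∧
      e / algebraMap R F ϖ ∉ opp 𝒪 w := by
  refine ⟨w (algebraMap F1 F t) - algebraMap F1 F t ^ q,
    sub_mem (Ct.wt_mem_chart T) (pow_mem (subset_chart _ (Set.mem_singleton _)) q), Ct.cong, ?_⟩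
  rw [mem_opp, map_div_unif, map_sub, map_pow, T.invol]
  exact Sep_not_mem T Ct

end Fermat.Agent.GS
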