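import Fermat.Agent.GS.Tower.Ded
import Fermat.Agent.GS.Tower.Frob
import Fermat.Agent.GS.Tower.Sep
import Fermat.Agent.GS.Tower.Frac
import Fermat.Agent.GS.Tower.Noeth

/-! GS, layer Tower, file Main: assembly. -/

set_option autoImplicit false

namespace Fermat.Agent.GS

open Fermat.Agent.GR.E

variable {R : Type*} [CommRing R] [IsDomain R] [IsDiscreteValuationRing R]
variable {F1 F : Type*} [Field F1] [Field F] [Algebra R F1] [Algebra R F] [Algebra F1 F]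
  [IsScalarTower R F1 F]
variable {ϖ : R} {𝒪1 : ValuationSubring F1} {𝒪 : ValuationSubring F} {w : F ≃ₐ[R] F} {q : ℕ}

theorem nodalChart_of_tower (hϖ : Irreducible ϖ) (hq : 1 < q) (T : TowerData ϖ 𝒪1 𝒪 w)
    {φ : F ≃+* F} (Φ : TowerFrob ϖ 𝒪1 𝒪 w q φ) {t : F1} (Ct : TowerChart ϖ 𝒪1 𝒪 w q t)
    (hφ : φ (algebraMap F1 F t) = algebraMap F1 F t) :
    NodalChart ϖ 𝒪 (opp 𝒪 w) (chart R ({algebraMap F1 F t} : Set F)) :=
  { toSatChart2 := Ct.satChart2 T
    frac₁ := frac_of_sat T.gauss (Ct.satChart2 T) T.disc (Ct.exists_denominator T) (Ct.sep₁ T)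
    frac₂ := frac_of_sat (gaussRing_opp T.gauss) (Ct.satChart2 T).symm T.disc_opp
      (Ct.exists_denominator T) (Ct.sep₂ T)
    noeth := isNoetherianRing_chart Ct.fin
    ded₁ := Ct.ded₁ hϖ T
    ded₂ := Ct.ded₂ hϖ T
    radical := Ct.radical hϖ hq T Φ hφ
    sep₁ := Ct.sep₁ T
    sep₂ := Ct.sep₂ T }

end Fermat.Agent.GS
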