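import Fermat.Agent.GS.Tower.Defs
import Fermat.Agent.GS.Abs.Basic

/-! GS, layer Tower, file Basic: elementary facts. -/

set_option autoImplicit false

namespace Fermat.Agent.GS

open Fermat.Agent.GR.E

variable {R : Type*} [CommRing R] [IsDomain R] [IsDiscreteValuationRing R]
variable {F1 F : Type*} [Field F1] [Field F] [Algebra R F1] [Algebra R F] [Algebra F1 F]
  [IsScalarTower R F1 F]
variable {ϖ : R} {𝒪1 : ValuationSubring F1} {𝒪 : ValuationSubring F} {w : F ≃ₐ[R] F} {q : ℕ}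

theorem gaussRing_opp (hG : GaussRing ϖ 𝒪) : GaussRing ϖ (opp 𝒪 w) := by
  refine ⟨hG.ne_zero, ?_, ?_, ?_⟩
  · rw [mem_opp, AlgEquiv.commutes]
    exact hG.mem
  · rw [mem_opp, map_inv₀, AlgEquiv.commutes]
    exact hG.inv_not_mem
  · intro x hx
    rw [mem_opp] at hx
    rw [mem_opp, mem_opp, map_div₀, map_inv₀, AlgEquiv.commutes]
    exact hG.unif _ hx

/-- division by `ϖ` commutes with `w`. -/
theorem map_div_unif (x : F) :
    w (x / algebraMap R F ϖ) = w x / algebraMap R F ϖ := by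
  rw [map_div₀, AlgEquiv.commutes]

theorem TowerData.div_mem_opp_iff (T : TowerData ϖ 𝒪1 𝒪 w) (x : F) :
    w x / algebraMap R F ϖ ∈ opp 𝒪 w ↔ x / algebraMap R F ϖ ∈ 𝒪 := by
  rw [mem_opp, map_div_unif, T.invol]

theorem TowerData.div_mem_iff (T : TowerData ϖ 𝒪1 𝒪 w) (x : F1) :
    algebraMap F1 F x / algebraMap R F ϖ ∈ 𝒪 ↔ x / algebraMap R F1 ϖ ∈ 𝒪1 := by
  rw [← T.comap, map_div₀, ← IsScalarTower.algebraMap_apply]

/-- auxiliary: the map induced by an `R`-algebra map on the adjoined algebras. -/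
def Basic_adjoinMap {F' : Type*} [Field F'] [Algebra R F'] (v : F1 →ₐ[R] F') (S : Set F1) :
    Algebra.adjoin R S →+* Algebra.adjoin R (v '' S) where
  toFun a := ⟨v (a : F1), by
    rw [← AlgHom.map_adjoin]
    exact ⟨a, a.2, rfl⟩⟩
  map_one' := by apply Subtype.ext; simp
  map_mul' := by intro a b; apply Subtype.ext; simp
  map_zero' := by apply Subtype.ext; simp
  map_add' := by intro a b; apply Subtype.ext; simp

theorem Basic_adjoinMap_comp {F' : Type*} [Field F'] [Algebra R F'] (v : F1 →ₐ[R] F')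
    (S : Set F1) : (algebraMap (Algebra.adjoin R (v '' S)) F').comp (Basic_adjoinMap v S)
      = (v : F1 →+* F').comp (algebraMap (Algebra.adjoin R S) F1) := by
  ext a
  rfl

theorem Basic_adjoinMap_surjective {F' : Type*} [Field F'] [Algebra R F'] (v : F1 →ₐ[R] F')
    (S : Set F1) : Function.Surjective (Basic_adjoinMap v S) := by
  rintro ⟨b, hb⟩
  rw [← AlgHom.map_adjoin] at hb
  obtain ⟨a, ha, rfl⟩ := hb
  exact ⟨⟨a, ha⟩, rfl⟩

/-- auxiliary: integrality transported along an `R`-algebra map. -/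
theorem Basic_map_mem_chart {F' : Type*} [Field F'] [Algebra R F'] (v : F1 →ₐ[R] F') {S : Set F1}
    {x : F1} (hx : x ∈ chart R S) : v x ∈ chart R (v '' S) := by
  rw [mem_chart] at hx ⊢
  exact IsIntegral.map_of_comp_eq (Basic_adjoinMap v S) (v : F1 →+* F')
    (Basic_adjoinMap_comp v S) hx

/-- auxiliary: integrality reflected along an `R`-algebra map of fields. -/
theorem Basic_mem_chart_of_map {F' : Type*} [Field F'] [Algebra R F'] (v : F1 →ₐ[R] F')
    {S : Set F1} {x : F1} (hx : v x ∈ chart R (v '' S)) : x ∈ chart R S := by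
  rw [mem_chart] at hx ⊢
  obtain ⟨p, hp, hpx⟩ := hx
  have hl : p ∈ Polynomial.lifts (Basic_adjoinMap v S) := by
    rw [Polynomial.mem_lifts]
    exact Polynomial.map_surjective _ (Basic_adjoinMap_surjective v S) p
  obtain ⟨p', hp', -, hmon⟩ := Polynomial.lifts_and_natDegree_eq_and_monic hl hp
  refine ⟨p', hmon, ?_⟩
  apply (v : F1 →+* F').injective
  rw [map_zero, Polynomial.hom_eval₂, ← Basic_adjoinMap_comp, ← Polynomial.eval₂_map, hp']
  exact hpx

/-- the image of a chart of `F1` lies in the chart of `F`. -/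
theorem algebraMap_mem_chart {S : Set F1} {x : F1} (hx : x ∈ chart R S) :
    algebraMap F1 F x ∈ chart R ((algebraMap F1 F) '' S) := by
  exact Basic_map_mem_chart (IsScalarTower.toAlgHom R F1 F) hx

theorem algebraMap_mem_chart_singleton {t x : F1} (hx : x ∈ chart R ({t} : Set F1)) :
    algebraMap F1 F x ∈ chart R ({algebraMap F1 F t} : Set F) := by
  have := algebraMap_mem_chart (F := F) hx
  rwa [Set.image_singleton] at this

/-- conversely (`algebraMap F1 F` is injective) -/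
theorem mem_chart_of_algebraMap_mem {t x : F1}
    (hx : algebraMap F1 F x ∈ chart R ({algebraMap F1 F t} : Set F)) :
    x ∈ chart R ({t} : Set F1) := by
  refine Basic_mem_chart_of_map (IsScalarTower.toAlgHom R F1 F) ?_
  rw [Set.image_singleton]
  exact hx

/-- an `R`-algebra automorphism maps charts to charts. -/
theorem map_mem_chart (v : F ≃ₐ[R] F) {S : Set F} {x : F} (hx : x ∈ chart R S) :
    v x ∈ chart R (v '' S) := by
  exact Basic_map_mem_chart (v : F →ₐ[R] F) hx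

/-- a chart is contained in every valuation subring containing `R` and the generators. -/
theorem chart_le_valuationSubring (V : ValuationSubring F) (hR : ∀ r : R, algebraMap R F r ∈ V)
    {S : Set F} (hS : ∀ s ∈ S, s ∈ V) {x : F} (hx : x ∈ chart R S) : x ∈ V := by
  rw [mem_chart] at hx
  have hle : ∀ a ∈ Algebra.adjoin R S, a ∈ V := by
    intro a ha
    induction ha using Algebra.adjoin_induction with
    | mem s hs => exact hS s hs
    | algebraMap r => exact hR r
    | add a b _ _ ha hb => exact add_mem ha hb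
    | mul a b _ _ ha hb => exact mul_mem ha hb
  obtain ⟨p, hp, hpx⟩ := hx
  let g : Algebra.adjoin R S →+* V :=
    { toFun := fun a => ⟨(a : F), hle a a.2⟩
      map_one' := rfl
      map_mul' := fun _ _ => rfl
      map_zero' := rfl
      map_add' := fun _ _ => rfl }
  have hint : IsIntegral V x := by
    refine ⟨p.map g, hp.map g, ?_⟩
    rw [Polynomial.eval₂_map]
    exact hpx
  have hcl : IsIntegrallyClosed V := inferInstance
  obtain ⟨y, hy⟩ := (isIntegrallyClosed_iff F).1 hcl hint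
  rw [← hy]
  exact y.2

theorem TowerChart.algebraMap_mem (T : TowerData ϖ 𝒪1 𝒪 w) {t : F1}
    (Ct : TowerChart ϖ 𝒪1 𝒪 w q t) (r : R) : algebraMap R F r ∈ 𝒪 := by
  rw [IsScalarTower.algebraMap_apply R F1 F, T.comap]
  exact Ct.good.le _ (Subalgebra.algebraMap_mem _ r)

theorem TowerChart.t_mem (T : TowerData ϖ 𝒪1 𝒪 w) {t : F1} (Ct : TowerChart ϖ 𝒪1 𝒪 w q t) :
    algebraMap F1 F t ∈ 𝒪 := by
  rw [T.comap]
  refine Ct.good.le _ ?_
  rw [mem_chart]
  have ht : t ∈ Algebra.adjoin R ({t} : Set F1) := Algebra.subset_adjoin rfl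
  exact (isIntegral_algebraMap (R := Algebra.adjoin R ({t} : Set F1)) (A := F1) (x := ⟨t, ht⟩))

theorem TowerChart.wt_mem (T : TowerData ϖ 𝒪1 𝒪 w) {t : F1} (Ct : TowerChart ϖ 𝒪1 𝒪 w q t) :
    w (algebraMap F1 F t) ∈ 𝒪 := by
  have h0 := T.gauss.ne_zero
  have : w (algebraMap F1 F t) = algebraMap F1 F t ^ q
      + algebraMap R F ϖ * ((w (algebraMap F1 F t) - algebraMap F1 F t ^ q) / algebraMap R F ϖ) := by
    field_simp
    ring
  rw [this]
  exact add_mem (pow_mem (Ct.t_mem T) _) (mul_mem T.gauss.mem Ct.cong)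

theorem TowerChart.le₁ (T : TowerData ϖ 𝒪1 𝒪 w) {t : F1} (Ct : TowerChart ϖ 𝒪1 𝒪 w q t) :
    ∀ x ∈ chart R ({algebraMap F1 F t} : Set F), x ∈ 𝒪 := by
  intro x hx
  refine chart_le_valuationSubring 𝒪 (Ct.algebraMap_mem T) ?_ hx
  intro s hs
  rw [Set.mem_singleton_iff.1 hs]
  exact Ct.t_mem T

theorem TowerChart.le₂ (T : TowerData ϖ 𝒪1 𝒪 w) {t : F1} (Ct : TowerChart ϖ 𝒪1 𝒪 w q t) :
    ∀ x ∈ chart R ({algebraMap F1 F t} : Set F), x ∈ opp 𝒪 w := by
  intro x hx
  refine chart_le_valuationSubring (opp 𝒪 w) ?_ ?_ hx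
  · intro r
    rw [mem_opp, AlgEquiv.commutes]
    exact Ct.algebraMap_mem T r
  · intro s hs
    rw [Set.mem_singleton_iff.1 hs, mem_opp]
    exact Ct.wt_mem T

/-- `F1` is the fraction field of a good chart. -/
theorem GoodChart.isFractionRing' {C : Subalgebra R F1} (hC : GoodChart ϖ 𝒪1 C) :
    IsFractionRing C F1 := by
  refine IsFractionRing.of_field C F1 fun z => ?_
  have key : ∀ x ∈ 𝒪1, ∃ a b : C, (b : F1) ≠ 0 ∧ x = (a : F1) / (b : F1) := by
    intro x hx
    obtain ⟨b, hb, hb', hxb⟩ := hC.frac x hx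
    have hb0 : b ≠ 0 := by
      rintro rfl
      exact hb' (by simp)
    exact ⟨⟨x * b, hxb⟩, ⟨b, hb⟩, hb0, by field_simp⟩
  rcases 𝒪1.mem_or_inv_mem z with hz | hz
  · obtain ⟨a, b, _, h⟩ := key z hz
    exact ⟨a, b, h⟩
  · obtain ⟨a, b, _, h⟩ := key z⁻¹ hz
    refine ⟨b, a, ?_⟩
    have : z = ((a : F1) / (b : F1))⁻¹ := by rw [← h, inv_inv]
    rw [this, inv_div]
    rfl

theorem SatChart.sat_pow' {C : Subalgebra R F1} (hC : SatChart ϖ 𝒪1 C) (m : ℕ) {x : F1}
    (hx : x ∈ C) (h : x / algebraMap R F1 ϖ ^ m ∈ 𝒪1) : x / algebraMap R F1 ϖ ^ m ∈ C :=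
  hC.sat_pow m hx h

end Fermat.Agent.GS
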