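import Fermat.Agent.GS.Tower.K1
import Fermat.Agent.GS.Tower.WStable

/-! GS, layer Tower, file Ded: `C/𝔭_∞ ≅ C1/ϖ` and `C/𝔭_0 ≅ C/𝔭_∞` (via `w`) are Dedekind domains. -/

set_option autoImplicit false

namespace Fermat.Agent.GS

open Fermat.Agent.GR.E

variable {R : Type*} [CommRing R] [IsDomain R] [IsDiscreteValuationRing R]
variable {F1 F : Type*} [Field F1] [Field F] [Algebra R F1] [Algebra R F] [Algebra F1 F]
  [IsScalarTower R F1 F]
variable {ϖ : R} {𝒪1 : ValuationSubring F1} {𝒪 : ValuationSubring F} {w : F ≃ₐ[R] F} {q : ℕ}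

/-- transport of `IsDedekindDomain` along a ring isomorphism. -/
theorem Ded_of_ringEquiv {A B : Type*} [CommRing A] [CommRing B] [IsDedekindDomain A]
    (e : A ≃+* B) : IsDedekindDomain B := by
  let _ : Algebra A B := e.toRingHom.toAlgebra
  have hdom : IsDomain B := e.toMulEquiv.isDomain_iff.mp inferInstance
  have h0 : IsLocalization (⊥ : Submonoid A) A := IsLocalization.self bot_le
  have : IsLocalization (⊥ : Submonoid A) B :=
    IsLocalization.isLocalization_of_algEquiv ⊥ (AlgEquiv.ofRingEquiv (f := e) (fun _ => rfl))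
  exact IsLocalization.isDedekindDomain A (M := ⊥) bot_le B

theorem TowerChart.ded₁ (hϖ : Irreducible ϖ) (T : TowerData ϖ 𝒪1 𝒪 w) {t : F1}
    (Ct : TowerChart ϖ 𝒪1 𝒪 w q t) :
    IsDedekindDomain (chart R ({algebraMap F1 F t} : Set F) ⧸
      vert ϖ 𝒪 (chart R ({algebraMap F1 F t} : Set F))) := by
  let g : chart R ({t} : Set F1) →+* chart R ({algebraMap F1 F t} : Set F) :=
    { toFun := fun c => ⟨algebraMap F1 F c, algebraMap_mem_chart_singleton c.2⟩
      map_one' := Subtype.ext (map_one _)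
      map_mul' := fun a b => Subtype.ext (map_mul _ _ _)
      map_zero' := Subtype.ext (map_zero _)
      map_add' := fun a b => Subtype.ext (map_add _ _ _) }
  have hsurj : Function.Surjective
      ((Ideal.Quotient.mk (vert ϖ 𝒪 (chart R ({algebraMap F1 F t} : Set F)))).comp g) := by
    intro y
    obtain ⟨z, rfl⟩ := Ideal.Quotient.mk_surjective y
    obtain ⟨c, hc, hzc⟩ := Ct.exists_sub_div_mem hϖ T z.2
    refine ⟨⟨c, hc⟩, ?_⟩
    show Ideal.Quotient.mk _ (g ⟨c, hc⟩) = Ideal.Quotient.mk _ z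
    rw [eq_comm, Ideal.Quotient.eq, mem_vert (Ct.le₁ T)]
    exact hzc
  have hker : RingHom.ker
      ((Ideal.Quotient.mk (vert ϖ 𝒪 (chart R ({algebraMap F1 F t} : Set F)))).comp g)
      = Ideal.span {algebraMap R (chart R ({t} : Set F1)) ϖ} := by
    ext c
    rw [RingHom.mem_ker, Ideal.mem_span_singleton']
    show Ideal.Quotient.mk _ (g c) = 0 ↔ _
    rw [Ideal.Quotient.eq_zero_iff_mem, mem_vert (Ct.le₁ T)]
    show algebraMap F1 F c / algebraMap R F ϖ ∈ 𝒪 ↔ _
    rw [T.div_mem_iff]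
    constructor
    · intro h
      refine ⟨⟨_, Ct.good.sat c c.2 h⟩, Subtype.ext ?_⟩
      show (c : F1) / algebraMap R F1 ϖ * algebraMap R F1 ϖ = c
      exact div_mul_cancel₀ _ T.gauss1.ne_zero
    · rintro ⟨a, rfl⟩
      show (a : F1) * algebraMap R F1 ϖ / algebraMap R F1 ϖ ∈ 𝒪1
      rw [mul_div_cancel_right₀ _ T.gauss1.ne_zero]
      exact Ct.good.le a a.2
  have := Ct.good.dedekind
  exact Ded_of_ringEquiv
    ((Ideal.quotEquivOfEq hker.symm).trans (RingHom.quotientKerEquivOfSurjective hsurj))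

theorem TowerChart.ded₂ (hϖ : Irreducible ϖ) (T : TowerData ϖ 𝒪1 𝒪 w) {t : F1}
    (Ct : TowerChart ϖ 𝒪1 𝒪 w q t) :
    IsDedekindDomain (chart R ({algebraMap F1 F t} : Set F) ⧸
      vert ϖ (opp 𝒪 w) (chart R ({algebraMap F1 F t} : Set F))) := by
  obtain ⟨e, he⟩ := Ct.exists_wEquiv T
  have h1 := Ct.ded₁ hϖ T
  have hI : vert ϖ (opp 𝒪 w) (chart R ({algebraMap F1 F t} : Set F))
      = (vert ϖ 𝒪 (chart R ({algebraMap F1 F t} : Set F))).map
        (e : chart R ({algebraMap F1 F t} : Set F) →+* chart R ({algebraMap F1 F t} : Set F)) := by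
    have h3 := Ideal.comap_symm (I := vert ϖ 𝒪 (chart R ({algebraMap F1 F t} : Set F))) e
    have h5 : (vert ϖ 𝒪 (chart R ({algebraMap F1 F t} : Set F))).map
        (e : chart R ({algebraMap F1 F t} : Set F) →+* chart R ({algebraMap F1 F t} : Set F))
        = (vert ϖ 𝒪 (chart R ({algebraMap F1 F t} : Set F))).map e := rfl
    rw [h5, ← h3]
    ext x
    have h4 : ((e.symm x : chart R ({algebraMap F1 F t} : Set F)) : F) = w x := by
      have h2 := he (e.symm x)
      rw [RingEquiv.apply_symm_apply] at h2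
      rw [h2, T.invol]
    rw [Ideal.mem_comap, mem_vert (Ct.le₂ T), mem_vert (Ct.le₁ T), mem_opp, map_div_unif]
    show _ ↔ ((e.symm x : chart R ({algebraMap F1 F t} : Set F)) : F) / algebraMap R F ϖ ∈ 𝒪
    rw [h4]
  exact Ded_of_ringEquiv (Ideal.quotientEquiv _ _ e hI)

end Fermat.Agent.GS
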