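import Fermat.Agent.GS.Abs.Defs

/-!
# Project GS, layer `Tower` (abstract): from a good chart of level `N1` to a nodal chart of level
`q N1`

`R` a DVR with uniformizer `ϖ`, `F1 ⊆ F` fields over `R` (`F1 = FF L N1`, `F = FF L (q N1)`),
`𝒪1` the Gauss valuation subring of `F1`, `𝒪` the Gauss valuation subring `𝒪_∞` of `F`,
`w` an `R`-linear involution of `F` (Atkin-Lehner), `𝒪_0 = 𝒪.comap w`.
-/

set_option autoImplicit false

namespace Fermat.Agent.GS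

open Fermat.Agent.GR.E

variable {R : Type*} [CommRing R] {F1 F : Type*} [Field F1] [Field F] [Algebra R F1] [Algebra R F]
  [Algebra F1 F]

/-- the second valuation subring `𝒪_0 = w⁻¹ 𝒪_∞`. -/
def opp (𝒪 : ValuationSubring F) (w : F ≃ₐ[R] F) : ValuationSubring F :=
  𝒪.comap (w : F →+* F)

theorem mem_opp {𝒪 : ValuationSubring F} {w : F ≃ₐ[R] F} {x : F} : x ∈ opp 𝒪 w ↔ w x ∈ 𝒪 :=
  Iff.rfl

/-- The chart-independent hypotheses. -/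
structure TowerData (ϖ : R) (𝒪1 : ValuationSubring F1) (𝒪 : ValuationSubring F) (w : F ≃ₐ[R] F) :
    Prop where
  gauss1 : GaussRing ϖ 𝒪1
  gauss : GaussRing ϖ 𝒪
  comap : ∀ x : F1, algebraMap F1 F x ∈ 𝒪 ↔ x ∈ 𝒪1
  invol : ∀ x, w (w x) = x
  /-- `𝒪_∞ ∩ 𝒪_0` is integral over `𝒪1` -/
  integral : ∀ z ∈ 𝒪, w z ∈ 𝒪 → ∃ p : Polynomial F1, p.Monic ∧ (∀ i, p.coeff i ∈ 𝒪1) ∧
    Polynomial.aeval z p = 0
  /-- the residue field of `𝒪_∞` is the residue field of `𝒪1` (on `𝒪_∞ ∩ 𝒪_0`) -/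
  res : ∀ z ∈ 𝒪, w z ∈ 𝒪 → ∃ f ∈ 𝒪1, (z - algebraMap F1 F f) / algebraMap R F ϖ ∈ 𝒪
  /-- `𝒪_∞` is discrete -/
  disc : ∀ x : F, x ≠ 0 → ∃ a : ℕ, x / algebraMap R F ϖ ^ a ∉ 𝒪

/-- A lift `φ` of the Frobenius (acting on the coefficients). -/
structure TowerFrob (ϖ : R) (𝒪1 : ValuationSubring F1) (𝒪 : ValuationSubring F) (w : F ≃ₐ[R] F)
    (q : ℕ) (φ : F ≃+* F) : Prop where
  mapR : ∀ r : R, ∃ r' : R, φ (algebraMap R F r) = algebraMap R F r'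
  mapR_symm : ∀ r : R, ∃ r' : R, φ.symm (algebraMap R F r) = algebraMap R F r'
  mem : ∀ x, φ x ∈ 𝒪 ↔ x ∈ 𝒪
  comm : ∀ x, φ (w x) = w (φ x)
  sub : ∀ f : F1, ∃ g : F1, φ (algebraMap F1 F f) = algebraMap F1 F g
  /-- `(φ f)(X ^ q) ≡ f ^ q` -/
  frob : ∀ f ∈ 𝒪1, (w (φ (algebraMap F1 F f)) - algebraMap F1 F f ^ q) / algebraMap R F ϖ ∈ 𝒪

/-- The hypotheses on the base function `t` of a chart (to be applied to `t = h_r` and
`t = h_r⁻¹`). -/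
structure TowerChart (ϖ : R) (𝒪1 : ValuationSubring F1) (𝒪 : ValuationSubring F) (w : F ≃ₐ[R] F)
    (q : ℕ) (t : F1) : Prop where
  good : GoodChart ϖ 𝒪1 (chart R ({t} : Set F1))
  /-- `w t` is integral over `Frac(R)[t]` -/
  wint : ∃ m : ℕ, algebraMap R F ϖ ^ m * w (algebraMap F1 F t) ∈
    chart R ({algebraMap F1 F t} : Set F)
  /-- `t(X ^ q) ≡ t ^ q` -/
  cong : (w (algebraMap F1 F t) - algebraMap F1 F t ^ q) / algebraMap R F ϖ ∈ 𝒪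
  /-- the reduction of `t` is not in `𝔽_{q²}` -/
  sep : (t - t ^ (q ^ 2)) / algebraMap R F1 ϖ ∉ 𝒪1
  fin : Module.Finite (Algebra.adjoin R ({algebraMap F1 F t} : Set F))
    (integralClosure (Algebra.adjoin R ({algebraMap F1 F t} : Set F)) F)

end Fermat.Agent.GS
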