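import Fermat.Agent.GS.Tower.Basic

/-! GS, layer Tower, file IC (only level `N1`): the reduction of a good chart is integrally closed
in the residue field of `𝒪1`.

Proof. `D = C ⧸ (ϖ)` is a Dedekind domain, hence integrally closed.  `κ = 𝒪1 / ϖ 𝒪1` is a field
(`GaussRing.unif`), `D → κ` is injective (`sat`) and `κ = Frac D` (`frac`).  The class of `f` in `κ` is
integral over `D`, so it lies in `D`. -/

set_option autoImplicit false

namespace Fermat.Agent.GS

open Fermat.Agent.GR.E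

variable {R : Type*} [CommRing R] [IsDomain R] [IsDiscreteValuationRing R]
variable {F1 F : Type*} [Field F1] [Field F] [Algebra R F1] [Algebra R F] [Algebra F1 F]
  [IsScalarTower R F1 F]
variable {ϖ : R} {𝒪1 : ValuationSubring F1} {𝒪 : ValuationSubring F} {w : F ≃ₐ[R] F} {q : ℕ}

theorem GoodChart.exists_sub_div_mem (hϖ : Irreducible ϖ) (hG : GaussRing ϖ 𝒪1)
    {C : Subalgebra R F1} (hC : GoodChart ϖ 𝒪1 C) {f : F1} (hf : f ∈ 𝒪1)
    (P : Polynomial C) (hP : P.Monic)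
    (h : Polynomial.aeval f P / algebraMap R F1 ϖ ∈ 𝒪1) :
    ∃ g ∈ C, (f - g) / algebraMap R F1 ϖ ∈ 𝒪1 := by
  classical
  have hπ0 : algebraMap R F1 ϖ ≠ 0 := hG.ne_zero
  have hker : ∀ x : 𝒪1, IsLocalRing.residue 𝒪1 x = 0 ↔ (x : F1) / algebraMap R F1 ϖ ∈ 𝒪1 := by
    intro x
    rw [IsLocalRing.residue_eq_zero_iff, IsLocalRing.mem_maximalIdeal, mem_nonunits_iff]
    constructor
    · intro hx
      rcases hG.unif x x.2 with h | h
      · exact h
      · by_cases hx0 : (x : F1) = 0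
        · rw [hx0, zero_div]
          exact zero_mem _
        · exact absurd (isUnit_iff_exists_inv.2 ⟨⟨_, h⟩, Subtype.ext (mul_inv_cancel₀ hx0)⟩) hx
    · intro h hu
      obtain ⟨y, hy⟩ := isUnit_iff_exists_inv.1 hu
      apply hG.inv_not_mem
      have hy' : (x : F1) * (y : F1) = 1 := congrArg Subtype.val hy
      have : (algebraMap R F1 ϖ)⁻¹ = (x : F1) / algebraMap R F1 ϖ * y := by
        rw [div_mul_eq_mul_div, hy', one_div]
      rw [this]
      exact mul_mem h y.2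
  let incl : C →+* 𝒪1 := (C.val.toRingHom).codRestrict 𝒪1.toSubring (fun x => hC.le _ x.2)
  let φ : C →+* IsLocalRing.ResidueField 𝒪1 := (IsLocalRing.residue 𝒪1).comp incl
  have hφ' : ∀ x : C, φ x = 0 ↔ (x : F1) / algebraMap R F1 ϖ ∈ 𝒪1 := fun x => hker (incl x)
  have hφ : ∀ x : C, φ x = 0 ↔ x ∈ Ideal.span {algebraMap R C ϖ} := by
    intro x
    rw [hφ', Ideal.mem_span_singleton]
    constructor
    · intro h
      refine ⟨⟨_, hC.sat _ x.2 h⟩, Subtype.ext ?_⟩
      change (x : F1) = algebraMap R F1 ϖ * ((x : F1) / algebraMap R F1 ϖ)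
      field_simp
    · rintro ⟨y, rfl⟩
      have : ((algebraMap R C ϖ * y : C) : F1) / algebraMap R F1 ϖ = y := by
        change algebraMap R F1 ϖ * (y : F1) / algebraMap R F1 ϖ = y
        field_simp
      rw [this]
      exact hC.le _ y.2
  let ψ : (C ⧸ Ideal.span {algebraMap R C ϖ}) →+* IsLocalRing.ResidueField 𝒪1 :=
    Ideal.Quotient.lift _ φ (fun x hx => (hφ x).2 hx)
  have hψinj : Function.Injective ψ := by
    rw [injective_iff_map_eq_zero]
    intro x hx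
    obtain ⟨c, rfl⟩ := Ideal.Quotient.mk_surjective x
    rw [Ideal.Quotient.eq_zero_iff_mem, ← hφ]
    exact hx
  let _ : Algebra (C ⧸ Ideal.span {algebraMap R C ϖ}) (IsLocalRing.ResidueField 𝒪1) := ψ.toAlgebra
  have : FaithfulSMul (C ⧸ Ideal.span {algebraMap R C ϖ}) (IsLocalRing.ResidueField 𝒪1) :=
    (faithfulSMul_iff_algebraMap_injective _ _).2 hψinj
  have : IsDedekindDomain (C ⧸ Ideal.span {algebraMap R C ϖ}) := hC.dedekind
  have : IsFractionRing (C ⧸ Ideal.span {algebraMap R C ϖ}) (IsLocalRing.ResidueField 𝒪1) := by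
    refine IsFractionRing.of_field _ _ ?_
    intro z
    obtain ⟨x, rfl⟩ := IsLocalRing.residue_surjective z
    obtain ⟨b, hb, hb', hxb⟩ := hC.frac x x.2
    refine ⟨Ideal.Quotient.mk _ ⟨_, hxb⟩, Ideal.Quotient.mk _ ⟨b, hb⟩, ?_⟩
    have hb0 : φ ⟨b, hb⟩ ≠ 0 := fun h0 => hb' ((hφ' ⟨b, hb⟩).1 h0)
    change IsLocalRing.residue 𝒪1 x = φ ⟨_, hxb⟩ / φ ⟨b, hb⟩
    rw [eq_div_iff hb0]
    change IsLocalRing.residue 𝒪1 x * IsLocalRing.residue 𝒪1 (incl ⟨b, hb⟩) =
      IsLocalRing.residue 𝒪1 (incl ⟨_, hxb⟩)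
    rw [← map_mul]
    rfl
  have hint : IsIntegral (C ⧸ Ideal.span {algebraMap R C ϖ})
      (IsLocalRing.residue 𝒪1 ⟨f, hf⟩) := by
    refine ⟨P.map (Ideal.Quotient.mk _), hP.map _, ?_⟩
    rw [Polynomial.eval₂_map]
    have h1 : (algebraMap (C ⧸ Ideal.span {algebraMap R C ϖ}) (IsLocalRing.ResidueField 𝒪1)).comp
        (Ideal.Quotient.mk _) = (IsLocalRing.residue 𝒪1).comp incl := rfl
    rw [h1, ← Polynomial.hom_eval₂, hker]
    have h2 : ((Polynomial.eval₂ incl ⟨f, hf⟩ P : 𝒪1) : F1) = Polynomial.aeval f P := by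
      have := Polynomial.hom_eval₂ P incl 𝒪1.subtype ⟨f, hf⟩
      exact this
    rw [h2]
    exact h
  obtain ⟨y, hy⟩ := IsIntegrallyClosed.algebraMap_eq_of_integral hint
  obtain ⟨g, rfl⟩ := Ideal.Quotient.mk_surjective y
  refine ⟨g, g.2, ?_⟩
  have h3 : IsLocalRing.residue 𝒪1 (⟨f, hf⟩ - incl g) = 0 := by
    rw [map_sub, ← hy]
    exact sub_self _
  exact (hker _).1 h3

end Fermat.Agent.GS
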