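import Fermat.Agent.GS.Tower.IC

/-! GS, layer Tower, file K1: every element of the chart `C` of `F` is congruent modulo `𝔭_∞` to an
element of the chart `C1` of `F1`.

Proof. `z ∈ C ⊆ 𝒪_∞ ∩ 𝒪_0`; `T.res` gives `f ∈ 𝒪1` with `z ≡ f` mod `ϖ 𝒪_∞`.  `z` is a root of a monic
polynomial `P` with coefficients in `R[t]`, so `P(f) ≡ P(z) = 0` mod `ϖ 𝒪_∞`, i.e. `P(f)/ϖ ∈ 𝒪1`
(`T.div_mem_iff`).  Apply `GoodChart.exists_sub_div_mem`. -/

set_option autoImplicit false

namespace Fermat.Agent.GS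

open Fermat.Agent.GR.E

variable {R : Type*} [CommRing R] [IsDomain R] [IsDiscreteValuationRing R]
variable {F1 F : Type*} [Field F1] [Field F] [Algebra R F1] [Algebra R F] [Algebra F1 F]
  [IsScalarTower R F1 F]
variable {ϖ : R} {𝒪1 : ValuationSubring F1} {𝒪 : ValuationSubring F} {w : F ≃ₐ[R] F} {q : ℕ}

omit [IsDomain R] [IsDiscreteValuationRing R] in
/-- transport of a monic equation over `R[algebraMap t]` to the chart of `F1`. -/
theorem K1_exists_monic {t : F1} {z : F} (hz : z ∈ chart R ({algebraMap F1 F t} : Set F)) :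
    ∃ P : Polynomial (chart R ({t} : Set F1)), P.Monic ∧
      Polynomial.eval z (P.map (algebraMap (chart R ({t} : Set F1)) F)) = 0 := by
  obtain ⟨P0, hP0, hz0⟩ := mem_chart.1 hz
  set p : Polynomial F := P0.map (algebraMap (Algebra.adjoin R ({algebraMap F1 F t} : Set F)) F)
    with hp
  have hpm : p.Monic := hP0.map _
  have hlift : p ∈ Polynomial.lifts (algebraMap (chart R ({t} : Set F1)) F) := by
    rw [Polynomial.lifts_iff_coeff_lifts]
    intro n
    rw [hp, Polynomial.coeff_map]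
    have hc : ((P0.coeff n : Algebra.adjoin R ({algebraMap F1 F t} : Set F)) : F) ∈
        (Algebra.adjoin R ({t} : Set F1)).map (IsScalarTower.toAlgHom R F1 F) := by
      rw [AlgHom.map_adjoin, Set.image_singleton]
      exact (P0.coeff n).2
    obtain ⟨y, hy, hy'⟩ := hc
    refine ⟨⟨y, ?_⟩, hy'⟩
    exact mem_chart.2 (isIntegral_algebraMap (x := (⟨y, hy⟩ : Algebra.adjoin R ({t} : Set F1))))
  obtain ⟨P, hP, -, hPm⟩ := Polynomial.lifts_and_natDegree_eq_and_monic hlift hpm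
  refine ⟨P, hPm, ?_⟩
  rw [hP, hp, Polynomial.eval_map]
  exact hz0

theorem TowerChart.exists_sub_div_mem (hϖ : Irreducible ϖ) (T : TowerData ϖ 𝒪1 𝒪 w) {t : F1}
    (Ct : TowerChart ϖ 𝒪1 𝒪 w q t) {z : F} (hz : z ∈ chart R ({algebraMap F1 F t} : Set F)) :
    ∃ g ∈ chart R ({t} : Set F1), (z - algebraMap F1 F g) / algebraMap R F ϖ ∈ 𝒪 := by
  have hz1 : z ∈ 𝒪 := Ct.le₁ T z hz
  have hz2 : w z ∈ 𝒪 := Ct.le₂ T z hz
  obtain ⟨f, hf, hzf⟩ := T.res z hz1 hz2
  obtain ⟨P, hPm, hPz⟩ := K1_exists_monic hz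
  have haf : algebraMap F1 F f ∈ 𝒪 := (T.comap f).2 hf
  -- the ring hom `C1 → 𝒪`
  let ψ : chart R ({t} : Set F1) →+* 𝒪 :=
    (algebraMap (chart R ({t} : Set F1)) F).codRestrict 𝒪.toSubring
      (fun c => (T.comap (c : F1)).2 (Ct.good.le c c.2))
  have hψ : (𝒪.subtype).comp ψ = algebraMap (chart R ({t} : Set F1)) F := by
    ext c
    rfl
  obtain ⟨s, hs⟩ := Polynomial.sub_dvd_eval_sub (⟨algebraMap F1 F f, haf⟩ : 𝒪) ⟨z, hz1⟩ (P.map ψ)
  have hev : ∀ x : 𝒪, ((Polynomial.eval x (P.map ψ) : 𝒪) : F) =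
      Polynomial.eval (x : F) (P.map (algebraMap (chart R ({t} : Set F1)) F)) := by
    intro x
    rw [← hψ, ← Polynomial.map_map]
    exact (Polynomial.eval_map_apply (𝒪.subtype) x).symm
  have hs' : Polynomial.eval (algebraMap F1 F f)
      (P.map (algebraMap (chart R ({t} : Set F1)) F)) = (algebraMap F1 F f - z) * (s : F) := by
    have := congrArg (𝒪.subtype) hs
    rw [map_sub, map_mul, map_sub] at this
    change ((Polynomial.eval (⟨algebraMap F1 F f, haf⟩ : 𝒪) (P.map ψ) : 𝒪) : F) -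
      ((Polynomial.eval (⟨z, hz1⟩ : 𝒪) (P.map ψ) : 𝒪) : F) = (algebraMap F1 F f - z) * (s : F) at this
    rw [hev, hev, hPz, sub_zero] at this
    exact this
  have hae : algebraMap F1 F (Polynomial.aeval f P) = Polynomial.eval (algebraMap F1 F f)
      (P.map (algebraMap (chart R ({t} : Set F1)) F)) := by
    rw [Polynomial.eval_map, Polynomial.aeval_def, Polynomial.hom_eval₂]
    rfl
  have hdiv : Polynomial.aeval f P / algebraMap R F1 ϖ ∈ 𝒪1 := by
    rw [← T.div_mem_iff, hae, hs']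
    have : (algebraMap F1 F f - z) * (s : F) / algebraMap R F ϖ =
        -((z - algebraMap F1 F f) / algebraMap R F ϖ) * (s : F) := by ring
    rw [this]
    exact 𝒪.mul_mem _ _ (𝒪.neg_mem _ hzf) s.2
  obtain ⟨g, hg, hfg⟩ := GoodChart.exists_sub_div_mem hϖ T.gauss1 Ct.good hf P hPm hdiv
  refine ⟨g, hg, ?_⟩
  have h1 : algebraMap F1 F (f - g) / algebraMap R F ϖ ∈ 𝒪 := (T.div_mem_iff (f - g)).2 hfg
  have : (z - algebraMap F1 F g) / algebraMap R F ϖ =
      (z - algebraMap F1 F f) / algebraMap R F ϖ + algebraMap F1 F (f - g) / algebraMap R F ϖ := by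
    rw [map_sub]; ring
  rw [this]
  exact 𝒪.add_mem _ _ hzf h1

end Fermat.Agent.GS
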