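import Fermat.Agent.GS.Tower.Basic

/-! GS, layer Tower, file Sat: the chart of `F` is saturated with respect to the two valuations.

Proof.  `x ∈ C`, `z = x / ϖ ∈ 𝒪_∞ ∩ 𝒪_0`.  `x` is integral over `C1 = chart R {t}`, which is
integrally closed with fraction field `F1`, so `minpoly F1 x = X^d + a_1 X^(d-1) + ... + a_d` with
`a_i ∈ C1` (`minpoly.isIntegrallyClosed_eq_field_fractions'`).  `minpoly F1 z` is
`X^d + (a_1/ϖ) X^(d-1) + ... + a_d/ϖ^d`; by `T.integral` `z` is integral over the valuation ring `𝒪1`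
(integrally closed, fraction field `F1`), so `a_i / ϖ^i ∈ 𝒪1`, hence `∈ C1` by `SatChart.sat_pow'`.
So `z` is integral over `C1`, hence over `R[t]`. -/

set_option autoImplicit false

namespace Fermat.Agent.GS

open Fermat.Agent.GR.E

variable {R : Type*} [CommRing R] [IsDomain R] [IsDiscreteValuationRing R]
variable {F1 F : Type*} [Field F1] [Field F] [Algebra R F1] [Algebra R F] [Algebra F1 F]
  [IsScalarTower R F1 F]
variable {ϖ : R} {𝒪1 : ValuationSubring F1} {𝒪 : ValuationSubring F} {w : F ≃ₐ[R] F} {q : ℕ}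

omit [Algebra R F1] [Algebra R F] [IsScalarTower R F1 F] [IsDomain R] [IsDiscreteValuationRing R]
  [CommRing R] in
/-- the minimal polynomial over the fraction field of an element killed by a monic polynomial with
coefficients in an integrally closed domain has coefficients in that domain. -/
theorem Sat_minpoly_coeff_mem {B : Type*} [CommRing B] [IsDomain B] [Algebra B F1]
    [IsFractionRing B F1] [IsIntegrallyClosed B] {y : F} (f : Polynomial B) (hf : f.Monic)
    (hy : Polynomial.aeval y (f.map (algebraMap B F1)) = 0) (i : ℕ) :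
    (minpoly F1 y).coeff i ∈ Set.range (algebraMap B F1) := by
  have hdvd : minpoly F1 y ∣ f.map (algebraMap B F1) := minpoly.dvd F1 y hy
  have hint : IsIntegral F1 y := ⟨f.map (algebraMap B F1), hf.map _, hy⟩
  obtain ⟨g, hg⟩ := IsIntegrallyClosed.eq_map_mul_C_of_dvd F1 hf hdvd
  rw [(minpoly.monic hint).leadingCoeff, Polynomial.C_1, mul_one] at hg
  rw [← hg, Polynomial.coeff_map]
  exact ⟨_, rfl⟩

omit [Field F1] [Algebra R F1] [Algebra R F] [Algebra F1 F] [IsScalarTower R F1 F] [IsDomain R]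
  [IsDiscreteValuationRing R] [CommRing R] in
theorem Sat_isIntegral_of_coeff {B : Type*} [CommRing B] [Algebra B F] (P : Polynomial F)
    (hP : P.Monic) (hc : ∀ i, P.coeff i ∈ Set.range (algebraMap B F)) {z : F}
    (hz : P.eval z = 0) : IsIntegral B z := by
  obtain ⟨q, hq, -, hqm⟩ :=
    Polynomial.lifts_and_natDegree_eq_and_monic ((Polynomial.lifts_iff_coeff_lifts _).2 hc) hP
  exact ⟨q, hqm, by rw [Polynomial.eval₂_eq_eval_map, hq, hz]⟩

omit [IsDomain R] [IsDiscreteValuationRing R] in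
theorem Sat_mem_adjoin_image {t : F1} {y : F}
    (hy : y ∈ Algebra.adjoin R ({algebraMap F1 F t} : Set F)) :
    ∃ c ∈ chart R ({t} : Set F1), algebraMap F1 F c = y := by
  have h1 : Algebra.adjoin R ({algebraMap F1 F t} : Set F) =
      (Algebra.adjoin R ({t} : Set F1)).map (IsScalarTower.toAlgHom R F1 F) := by
    rw [AlgHom.map_adjoin, Set.image_singleton]
    rfl
  rw [h1] at hy
  obtain ⟨c, hc, rfl⟩ := hy
  refine ⟨c, ?_, rfl⟩
  exact mem_chart.mpr (isIntegral_algebraMap (x := (⟨c, hc⟩ : Algebra.adjoin R ({t} : Set F1))))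

/-- general form of the argument -/
theorem mem_chart_of_integral (T : TowerData ϖ 𝒪1 𝒪 w) {t : F1}
    (hgood : GoodChart ϖ 𝒪1 (chart R ({t} : Set F1))) {x : F}
    (hx : x ∈ chart R ({algebraMap F1 F t} : Set F))
    (h₁ : x / algebraMap R F ϖ ∈ 𝒪) (h₂ : w (x / algebraMap R F ϖ) ∈ 𝒪) :
    x / algebraMap R F ϖ ∈ chart R ({algebraMap F1 F t} : Set F) := by
  have hfr : IsFractionRing (chart R ({t} : Set F1)) F1 :=
    GoodChart.isFractionRing' hgood
  have hic : IsIntegrallyClosed (chart R ({t} : Set F1)) :=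
    (isIntegrallyClosed_iff F1).2 fun {y} hy => ⟨⟨y, hgood.closed y hy⟩, rfl⟩
  have hϖ1 : algebraMap R F1 ϖ ≠ 0 := T.gauss1.ne_zero
  have hϖ : algebraMap R F ϖ ≠ 0 := T.gauss.ne_zero
  have hmap : algebraMap F1 F (algebraMap R F1 ϖ) = algebraMap R F ϖ :=
    (IsScalarTower.algebraMap_apply R F1 F ϖ).symm
  -- `minpoly F1 x` has coefficients in `C1`
  have hPc : IsIntegral F1 x ∧ ∀ i, (minpoly F1 x).coeff i ∈ chart R ({t} : Set F1) := by
    obtain ⟨p, hpm, hp⟩ := mem_chart.1 hx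
    have hl : p.map (algebraMap _ F) ∈ Polynomial.lifts
        ((algebraMap F1 F).comp (algebraMap (chart R ({t} : Set F1)) F1)) := by
      rw [Polynomial.lifts_iff_coeff_lifts]
      intro i
      rw [Polynomial.coeff_map]
      obtain ⟨c, hc, hc'⟩ := Sat_mem_adjoin_image (R := R) (t := t) (p.coeff i).2
      exact ⟨⟨c, hc⟩, hc'⟩
    obtain ⟨f, hf, -, hfm⟩ := Polynomial.lifts_and_natDegree_eq_and_monic hl (hpm.map _)
    have hroot : Polynomial.aeval x (f.map (algebraMap (chart R ({t} : Set F1)) F1)) = 0 := by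
      rw [Polynomial.aeval_def, Polynomial.eval₂_map, Polynomial.eval₂_eq_eval_map, hf,
        ← Polynomial.eval₂_eq_eval_map, hp]
    refine ⟨⟨_, hfm.map _, hroot⟩, fun i => ?_⟩
    obtain ⟨c, hc⟩ := Sat_minpoly_coeff_mem f hfm hroot i
    rw [← hc]
    exact c.2
  obtain ⟨hintx, hPc⟩ := hPc
  -- `minpoly F1 z` has coefficients in `𝒪1`
  have hQc : IsIntegral F1 (x / algebraMap R F ϖ) ∧
      ∀ i, (minpoly F1 (x / algebraMap R F ϖ)).coeff i ∈ 𝒪1 := by
    obtain ⟨p, hpm, hpc, hp⟩ := T.integral _ h₁ h₂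
    have hl : p ∈ Polynomial.lifts (algebraMap 𝒪1 F1) := by
      rw [Polynomial.lifts_iff_coeff_lifts]
      exact fun i => ⟨⟨p.coeff i, hpc i⟩, rfl⟩
    obtain ⟨f, hf, -, hfm⟩ := Polynomial.lifts_and_natDegree_eq_and_monic hl hpm
    refine ⟨⟨p, hpm, hp⟩, fun i => ?_⟩
    obtain ⟨c, hc⟩ := Sat_minpoly_coeff_mem (y := x / algebraMap R F ϖ) f hfm (by rw [hf, hp]) i
    rw [← hc]
    exact c.2
  obtain ⟨hintz, hQc⟩ := hQc
  -- comparison of the two minimal polynomials
  have hcmp : (minpoly F1 x).scaleRoots (algebraMap R F1 ϖ)⁻¹ =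
      minpoly F1 (x / algebraMap R F ϖ) := by
    refine minpoly.unique F1 _ ((Polynomial.monic_scaleRoots_iff _).2 (minpoly.monic hintx)) ?_ ?_
    · have := Polynomial.scaleRoots_aeval_eq_zero (r := (algebraMap R F1 ϖ)⁻¹)
        (minpoly.aeval F1 x)
      rwa [map_inv₀, hmap, inv_mul_eq_div] at this
    · intro q hqm hq
      rw [Polynomial.degree_scaleRoots]
      have := Polynomial.scaleRoots_aeval_eq_zero (r := algebraMap R F1 ϖ) hq
      rw [hmap, mul_div_cancel₀ _ hϖ] at this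
      have h3 := minpoly.min F1 x ((Polynomial.monic_scaleRoots_iff _).2 hqm) this
      rwa [Polynomial.degree_scaleRoots] at h3
  have hQC : ∀ i, (minpoly F1 (x / algebraMap R F ϖ)).coeff i ∈ chart R ({t} : Set F1) := by
    intro i
    have h4 := hQc i
    rw [← hcmp, Polynomial.coeff_scaleRoots, inv_pow, ← div_eq_mul_inv] at h4 ⊢
    exact SatChart.sat_pow' hgood.toSatChart _ (hPc i) h4
  refine chart_closed _ _ (Sat_isIntegral_of_coeff
    ((minpoly F1 (x / algebraMap R F ϖ)).map (algebraMap F1 F)) ((minpoly.monic hintz).map _)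
    (fun i => ?_) ?_)
  · rw [Polynomial.coeff_map]
    exact ⟨⟨_, algebraMap_mem_chart_singleton (hQC i)⟩, rfl⟩
  · rw [Polynomial.eval_map_algebraMap, minpoly.aeval]

theorem TowerChart.satChart2 (T : TowerData ϖ 𝒪1 𝒪 w) {t : F1} (Ct : TowerChart ϖ 𝒪1 𝒪 w q t) :
    SatChart2 ϖ 𝒪 (opp 𝒪 w) (chart R ({algebraMap F1 F t} : Set F)) := by
  exact
    { le₁ := Ct.le₁ T
      le₂ := Ct.le₂ T
      sat := fun _ hx h1 h2 => mem_chart_of_integral T Ct.good hx h1 (mem_opp.1 h2)
      closed := chart_closed _ }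

end Fermat.Agent.GS
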